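import Mathlib.GroupTheory.Index
import Mathlib.Data.ZMod.QuotientGroup
import Mathlib.Topology.Algebra.OpenSubgroup
import Mathlib.Analysis.Normed.Module.FiniteDimension
import Mathlib.Analysis.Normed.Group.Ultra
import Mathlib.Algebra.CharP.Algebra
import Mathlib.NumberTheory.Padics.ProperSpace
import Mathlib.NumberTheory.Padics.RingHoms
import Mathlib.RingTheory.Finiteness.Basic

/-!
# The index of multiplication on a group and on a subgroup of finite index

The quotient `[A : mA] / #A[m]` does not change from a group to a subgroup of finite index. For the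
unit ball of a finite extension of `ℚ_p` it is `p ^ (d v_p(m))`, `d` the degree.
-/

set_option autoImplicit false
set_option linter.unusedSectionVars false

noncomputable section

namespace FA.LocalDescent

section

variable {A : Type*} [AddCommGroup A] (m : ℕ)

/-- Multiplication by `m`. -/
abbrev mulBy (A : Type*) [AddCommGroup A] (m : ℕ) : A →+ A := nsmulAddMonoidHom m

/-- The index of the multiples. -/
abbrev mulIndex (A : Type*) [AddCommGroup A] (m : ℕ) : ℕ := (mulBy A m).range.index

/-- The order of the torsion. -/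
abbrev torCard (A : Type*) [AddCommGroup A] (m : ℕ) : ℕ := Nat.card (mulBy A m).ker

theorem mem_ker_mulBy {a : A} : a ∈ (mulBy A m).ker ↔ m • a = 0 := Iff.rfl

theorem torCard_eq : torCard A m = Nat.card {a : A // m • a = 0} :=
  Nat.card_congr (Equiv.subtypeEquivRight fun _ => Iff.rfl)

variable {m}

theorem mulIndex_congr {B : Type*} [AddCommGroup B] (e : A ≃+ B) (m : ℕ) :
    mulIndex A m = mulIndex B m := by
  rw [mulIndex, mulIndex, ← AddSubgroup.index_map_equiv (mulBy A m).range e]
  congr 1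
  ext b
  refine ⟨?_, ?_⟩
  · rintro ⟨_, ⟨a, rfl⟩, rfl⟩
    exact ⟨e a, (map_nsmul e m a).symm⟩
  · rintro ⟨c, rfl⟩
    exact ⟨_, ⟨e.symm c, rfl⟩, by simp⟩

theorem torCard_congr {B : Type*} [AddCommGroup B] (e : A ≃+ B) (m : ℕ) :
    torCard A m = torCard B m :=
  Nat.card_congr (e.toEquiv.subtypeEquiv fun a => by
    show m • a = 0 ↔ m • e a = 0
    rw [← map_nsmul, map_eq_zero_iff e e.injective])

/-- **Invariance under finite index.** -/
theorem mulIndex_mul_torCard (H : AddSubgroup A) (hH : H.index ≠ 0) [Finite (mulBy A m).ker] :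
    mulIndex A m * torCard H m = mulIndex H m * torCard A m := by
  set f := mulBy A m
  set g := mulBy H m
  have himg : (g.range.map H.subtype : AddSubgroup A) = H.map f := by
    ext x
    refine ⟨?_, ?_⟩
    · rintro ⟨_, ⟨h, rfl⟩, rfl⟩
      exact ⟨h, h.2, (map_nsmul H.subtype m h).symm⟩
    · rintro ⟨h, hh, rfl⟩
      exact ⟨_, ⟨⟨h, hh⟩, rfl⟩, map_nsmul H.subtype m ⟨h, hh⟩⟩
  have h1 : g.range.index * H.index = (H ⊔ f.ker).index * f.range.index := by
    rw [← AddSubgroup.index_map, ← himg, AddSubgroup.index_map_subtype]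
  have h2 : H.relIndex (H ⊔ f.ker) * (H ⊔ f.ker).index = H.index :=
    AddSubgroup.relIndex_mul_index le_sup_left
  have h3 : Nat.card (H.addSubgroupOf f.ker) = torCard H m :=
    Nat.card_congr
      { toFun := fun a => ⟨⟨a.1.1, a.2⟩, Subtype.ext (by exact a.1.2)⟩
        invFun := fun a => ⟨⟨a.1.1, by exact congrArg Subtype.val a.2⟩, a.1.2⟩
        left_inv := fun _ => rfl
        right_inv := fun _ => rfl }
  have h4 : H.relIndex f.ker * torCard H m = torCard A m := by
    rw [← h3, mul_comm, AddSubgroup.relIndex]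
    exact AddSubgroup.card_mul_index _
  rw [AddSubgroup.relIndex_sup_left] at h2
  have hS : (H ⊔ f.ker).index ≠ 0 := fun h => hH (by rw [← h2, h, mul_zero])
  have h5 : f.range.index = g.range.index * H.relIndex f.ker :=
    mul_left_cancel₀ hS (by rw [← h1, ← h2]; ring)
  show f.range.index * _ = g.range.index * _
  rw [h5, ← h4, mul_assoc]

end

/-- The index of `p ^ v u`, `u` prime to `p`, in `ℤ_p` is `p ^ v`. -/
theorem mulIndex_padicInt {p : ℕ} [hp : Fact p.Prime] {m : ℕ} (hm : m ≠ 0) :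
    mulIndex ℤ_[p] m = p ^ padicValNat p m := by
  obtain ⟨v, u, hu, rfl⟩ := Nat.exists_eq_pow_mul_and_not_dvd hm p hp.out.ne_one
  have hv : padicValNat p (p ^ v * u) = v := by
    rw [padicValNat.mul (pow_ne_zero _ hp.out.ne_zero) (by rintro rfl; exact hu (dvd_zero p)),
      padicValNat.prime_pow, padicValNat.eq_zero_of_not_dvd hu, add_zero]
  have hunit : IsUnit (u : ℤ_[p]) := by
    rw [PadicInt.isUnit_iff]
    exact Padic.norm_natCast_eq_one_iff.2 (hp.out.coprime_iff_not_dvd.2 hu)
  have he : (mulBy ℤ_[p] (p ^ v * u)).range =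
      (PadicInt.toZModPow (p := p) v).toAddMonoidHom.ker := by
    ext x
    rw [AddMonoidHom.mem_ker, RingHom.toAddMonoidHom_eq_coe, AddMonoidHom.coe_coe,
      ← RingHom.mem_ker, PadicInt.ker_toZModPow, Ideal.mem_span_singleton]
    refine ⟨?_, fun ⟨c, hc⟩ => ⟨(hunit.unit⁻¹ : ℤ_[p]ˣ) * c, ?_⟩⟩
    · rintro ⟨y, rfl⟩
      exact ⟨u * y, by simp [mul_assoc]⟩
    · show (p ^ v * u) • _ = x
      rw [nsmul_eq_mul, Nat.cast_mul, Nat.cast_pow, mul_assoc, ← mul_assoc (u : ℤ_[p]),
        IsUnit.mul_val_inv, one_mul, hc]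
  rw [mulIndex, he, AddSubgroup.index_ker, hv,
    AddMonoidHom.range_eq_top.2 (ZMod.ringHom_surjective _), AddSubgroup.card_top, Nat.card_zmod]

theorem mulIndex_pi {ι : Type*} [Fintype ι] (A : Type*) [AddCommGroup A] (m : ℕ) :
    mulIndex (ι → A) m = mulIndex A m ^ Fintype.card ι := by
  have h : (mulBy (ι → A) m).range = AddSubgroup.pi Set.univ fun _ : ι => (mulBy A m).range := by
    ext x
    refine ⟨fun ⟨y, hy⟩ i _ => ⟨y i, congrFun hy i⟩, fun h => ?_⟩
    choose y hy using fun i => h i (Set.mem_univ i)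
    exact ⟨y, funext hy⟩
  rw [mulIndex, h, AddSubgroup.index_pi, Finset.prod_const, Finset.card_univ]

section Ball

variable (p : ℕ) [hp : Fact p.Prime] (K : Type*) [NormedField K] [NormedAlgebra ℚ_[p] K]
  [FiniteDimensional ℚ_[p] K] [IsUltrametricDist K]

/-- The closed ball of radius `r`, as a subgroup. -/
def ball (r : ℝ) (hr : 0 ≤ r) : AddSubgroup K where
  carrier := {x | ‖x‖ ≤ r}
  zero_mem' := by simpa using hr
  add_mem' := fun {x y} hx hy => (IsUltrametricDist.norm_add_le_max x y).trans (max_le hx hy)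
  neg_mem' := fun {x} (hx : ‖x‖ ≤ r) => show ‖-x‖ ≤ r by rwa [norm_neg]

/-- The integers. -/
abbrev intBall : AddSubgroup K := ball K 1 zero_le_one

theorem torCard_intBall [CharZero K] {m : ℕ} (hm : m ≠ 0) : torCard (intBall K) m = 1 := by
  rw [torCard_eq, Nat.card_eq_one_iff_unique]
  refine ⟨⟨fun a b => ?_⟩, ⟨⟨0, nsmul_zero m⟩⟩⟩
  have h : ∀ c : {a : intBall K // m • a = 0}, (c.1 : K) = 0 := fun c => by
    have := congrArg Subtype.val c.2
    rw [AddSubgroup.coe_nsmul, ZeroMemClass.coe_zero, nsmul_eq_mul, mul_eq_zero] at this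
    exact this.resolve_left (Nat.cast_ne_zero.2 hm)
  exact Subtype.ext (Subtype.ext ((h a).trans (h b).symm))

/-- **The integers of degree `d` have index `p ^ (d v)`.** -/
theorem mulIndex_intBall {m : ℕ} (hm : m ≠ 0) :
    mulIndex (intBall K) m = p ^ (Module.finrank ℚ_[p] K * padicValNat p m) := by
  have : ProperSpace K := FiniteDimensional.proper ℚ_[p] K
  set b := Module.finBasis ℚ_[p] K
  obtain ⟨n, hn⟩ := pow_unbounded_of_one_lt (∑ i, ‖b i‖)
    (Nat.one_lt_cast.2 hp.out.one_lt : (1 : ℝ) < p)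
  set φ : (Fin (Module.finrank ℚ_[p] K) → ℤ_[p]) →+ K :=
    AddMonoidHom.mk' (fun c => ∑ i, ((p : ℚ_[p]) ^ n * (c i : ℚ_[p])) • b i) fun c d => by
      rw [← Finset.sum_add_distrib]
      exact Finset.sum_congr rfl fun i _ => by
        rw [Pi.add_apply, PadicInt.coe_add, mul_add, add_smul]
  have hle : ∀ c, ‖φ c‖ ≤ 1 := fun c => by
    simp only [φ, AddMonoidHom.mk'_apply]
    refine IsUltrametricDist.norm_sum_le_of_forall_le_of_nonneg (M := K) zero_le_one fun i _ => ?_
    rw [norm_smul, norm_mul, norm_pow, Padic.norm_p, inv_pow, mul_assoc, inv_mul_le_iff₀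
      (pow_pos (Nat.cast_pos.2 hp.out.pos) n), mul_one]
    exact (mul_le_of_le_one_left (norm_nonneg _) (c i).2).trans
      ((Finset.single_le_sum (fun j _ => norm_nonneg (b j)) (Finset.mem_univ i)).trans hn.le)
  have hinj : Function.Injective φ := fun c d h => funext fun i => by
    have h1 := congrArg (fun x => b.repr x i) h
    simp only [φ, AddMonoidHom.mk'_apply, b.repr_sum_self] at h1
    exact Subtype.ext (mul_left_cancel₀ (pow_ne_zero n (Nat.cast_ne_zero.2 hp.out.ne_zero)) h1)
  set ψ : (Fin (Module.finrank ℚ_[p] K) → ℤ_[p]) →+ intBall K := φ.codRestrict _ hle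
  have hψ : Function.Injective ψ := fun c d h => hinj (congrArg Subtype.val h)
  have hopen : IsOpen (ψ.range : Set (intBall K)) := by
    have e : (ψ.range : Set (intBall K)) = (fun x : intBall K => b.equivFunL (x : K)) ⁻¹'
        Set.pi Set.univ fun _ => {t : ℚ_[p] | ‖t‖ ≤ ((p : ℝ) ^ n)⁻¹} := by
      ext x
      refine ⟨?_, fun hx => ?_⟩
      · rintro ⟨c, rfl⟩ i -
        show ‖b.repr (φ c) i‖ ≤ _
        simp only [φ, AddMonoidHom.mk'_apply, b.repr_sum_self]
        rw [norm_mul, norm_pow, Padic.norm_p, inv_pow]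
        exact mul_le_of_le_one_right (by positivity) (c i).2
      · have hc : ∀ i, ‖((p : ℚ_[p]) ^ n)⁻¹ * b.repr (x : K) i‖ ≤ 1 := fun i => by
          rw [norm_mul, norm_inv, norm_pow, Padic.norm_p, inv_pow, inv_inv,
            ← le_inv_mul_iff₀ (pow_pos (Nat.cast_pos.2 hp.out.pos) n), mul_one]
          exact hx i (Set.mem_univ i)
        refine ⟨fun i => ⟨_, hc i⟩, Subtype.ext ?_⟩
        show φ _ = _
        simp only [φ, AddMonoidHom.mk'_apply, mul_inv_cancel_left₀
          (pow_ne_zero n (Nat.cast_ne_zero.2 hp.out.ne_zero : (p : ℚ_[p]) ≠ 0))]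
        exact b.sum_repr x
    rw [e]
    refine IsOpen.preimage (b.equivFunL.continuous.comp continuous_subtype_val)
      (isOpen_set_pi Set.finite_univ fun _ _ => ?_)
    have := IsUltrametricDist.isOpen_closedBall (0 : ℚ_[p])
      (r := ((p : ℝ) ^ n)⁻¹) (inv_ne_zero (pow_ne_zero n (Nat.cast_ne_zero.2 hp.out.ne_zero)))
    convert this using 1
    ext t; simp
  have : CompactSpace (intBall K) := isCompact_iff_compactSpace.1 (by
    convert isCompact_closedBall (0 : K) 1 using 1
    ext x; simp [intBall, ball])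
  have : Finite (intBall K ⧸ ψ.range) := AddSubgroup.quotient_finite_of_isOpen ψ.range hopen
  have hfin : ψ.range.index ≠ 0 := AddSubgroup.index_ne_zero_of_finite
  have : CharZero K := charZero_of_injective_algebraMap (algebraMap ℚ_[p] K).injective
  have htor := torCard_intBall K hm
  have : Finite (mulBy (intBall K) m).ker :=
    Nat.finite_of_card_ne_zero (by rw [show Nat.card _ = 1 from htor]; exact one_ne_zero)
  have h := mulIndex_mul_torCard (m := m) ψ.range hfin
  have e := AddMonoidHom.ofInjective hψ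
  rw [← mulIndex_congr e, ← torCard_congr e, htor, mul_one] at h
  have ht : torCard (Fin (Module.finrank ℚ_[p] K) → ℤ_[p]) m = 1 := by
    rw [torCard_eq, Nat.card_eq_one_iff_unique]
    refine ⟨⟨fun a b => ?_⟩, ⟨⟨0, nsmul_zero m⟩⟩⟩
    refine Subtype.ext (funext fun i => ?_)
    have h1 := congrFun a.2 i
    have h2 := congrFun b.2 i
    rw [Pi.smul_apply, nsmul_eq_mul, Pi.zero_apply, mul_eq_zero] at h1 h2
    exact (h1.resolve_left (Nat.cast_ne_zero.2 hm)).trans
      (h2.resolve_left (Nat.cast_ne_zero.2 hm)).symm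
  rw [ht, mul_one] at h
  rw [h, mulIndex_pi, mulIndex_padicInt hm, Fintype.card_fin, ← pow_mul, mul_comm]

end Ball

end FA.LocalDescent
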