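import Fermat.Agent.LocalDescent.Main
import Fermat.Agent.LocalPts.Descend
import Fermat.Agent.LocalPts.Kummer

/-!
# The image of the local Kummer map modulo `p ^ n`

The algebraic points of `E (ℚ_p)` meet every coset of `p ^ n E (ℚ_p)`, so the classes of the
cocycles `τ ↦ τ R - R`, `p ^ n R` fixed, number `[E (ℚ_p) : p ^ n E (ℚ_p)]`.
-/

set_option autoImplicit false
set_option linter.unusedSectionVars false

noncomputable section

open WeierstrassCurve FA.EC FA.Local FA.Frob FA.RT.Tate FA.LocalPts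
open scoped WeierstrassCurve.Affine Classical

namespace FA.LocalDescent

variable (p : ℕ) [hp : Fact p.Prime] (W : WeierstrassCurve ℤ) [(ratCurve W).IsElliptic]

local notation "Cl" => PadicAlgCl p
local notation "G" => PadicAlgCl p ≃ₐ[ℚ_[p]] PadicAlgCl p

/-- The cocycle of a point. -/
def diffHom : Pts W →+ ((PadicAlgCl p ≃ₐ[ℚ_[p]] PadicAlgCl p) → Pts W) :=
  AddMonoidHom.mk' (fun R τ => localGaloisToGlobal p τ • R - R) fun R R' => funext fun τ => by
    show localGaloisToGlobal p τ • (R + R') - (R + R') = _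
    rw [gal_smul_add, Pi.add_apply]
    abel

/-- The algebraic points over `ℚ_p`. -/
abbrev localFixed : AddSubgroup (Pts W) := (diffHom p W).ker

/-- The points with `p ^ n`-th multiple over `ℚ_p`. -/
abbrev divFixed (n : ℕ) : AddSubgroup (Pts W) := (localFixed p W).comap (mulBy (Pts W) (p ^ n))

theorem mem_localFixed {R : Pts W} :
    R ∈ localFixed p W ↔ ∀ τ : G, localGaloisToGlobal p τ • R = R :=
  ⟨fun h τ => sub_eq_zero.1 (congrFun (AddMonoidHom.mem_ker.1 h) τ),
    fun h => funext fun τ => sub_eq_zero.2 (h τ)⟩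

/-- The index of `p ^ n` in the algebraic points over `ℚ_p`. -/
theorem mulIndex_localFixed (n : ℕ) :
    mulIndex (localFixed p W) (p ^ n) = mulIndex (atField W ℚ_[p]).toAffine.Point (p ^ n) := by
  choose T hT using fun R : localFixed p W =>
    exists_descend_padic (p := p) ((mem_localFixed p W).1 R.2)
  set j := mapHom (algebraMap ℚ_[p] Cl) (map_atField (W := W) (algebraMap ℚ_[p] Cl))
  have hj : Function.Injective j := mapHom_injective _ _
  set ι : localFixed p W →+ (atField W ℚ_[p]).toAffine.Point :=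
    AddMonoidHom.mk' T fun R R' => hj (by
      rw [map_add, hT, hT, hT, AddSubgroup.coe_add, map_add])
  have hι : ∀ R, j (ι R) = toLocal p (R : Pts W) := hT
  set N := (mulBy (atField W ℚ_[p]).toAffine.Point (p ^ n)).range
  have hcomap : N.comap ι = (mulBy (localFixed p W) (p ^ n)).range := by
    ext R
    refine ⟨fun ⟨Q, hQ⟩ => ?_, ?_⟩
    · have hQ' : p ^ n • j Q = toLocal p (R : Pts W) := by
        rw [← map_nsmul, ← hι, ← hQ]; rfl
      obtain ⟨P, hP⟩ := exists_toLocal_of_nsmul (pow_ne_zero n hp.out.ne_zero) hQ'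
      refine ⟨⟨P, (mem_localFixed p W).2 (smul_eq_of_toLocal hP.symm)⟩, Subtype.ext ?_⟩
      refine toLocal_injective (p := p) ?_
      show toLocal p (p ^ n • P) = _
      rw [map_nsmul, hP, hQ']
    · rintro ⟨Q, rfl⟩
      exact ⟨ι Q, (map_nsmul ι (p ^ n) Q).symm⟩
  have hsup : ι.range ⊔ N = ⊤ := by
    refine eq_top_iff.2 fun P _ => ?_
    obtain ⟨P₀, T₀, h₀, e, hT₀, he, -⟩ := exists_base p W
    have hI := intCoeff_atField (W := W) ℚ_[p]
    obtain ⟨a, u, hu, hidx⟩ := Nat.exists_eq_pow_mul_and_not_dvd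
      (lev_index_ne_zero (intCoeff_atField (W := W) ℚ_[p]) 2) p hp.out.ne_one
    set β := e ⟨(lev hI 2).index • P, (lev hI 2).nsmul_index_mem P⟩
    set k := n + a
    obtain ⟨d, hd⟩ : ∃ d, β - (β.appr k : ℤ_[p]) = (p : ℤ_[p]) ^ k * d :=
      Ideal.mem_span_singleton'.1 (PadicInt.appr_spec k β) |>.imp fun d hd => by
        rw [← hd, mul_comm]
    have hunit : IsUnit (u : ℤ_[p]) := by
      rw [PadicInt.isUnit_iff]
      exact Padic.norm_natCast_eq_one_iff.2 (hp.out.coprime_iff_not_dvd.2 hu)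
    set R := e.symm ((hunit.unit⁻¹ : ℤ_[p]ˣ) * d)
    have hX : ((lev hI 2).index • (P - p ^ n • (R : (atField W ℚ_[p]).toAffine.Point))) =
        β.appr k • T₀ := by
      have hL : (⟨(lev hI 2).index • P, (lev hI 2).nsmul_index_mem P⟩ : lev hI 2) -
          ((lev hI 2).index * p ^ n) • R =
          β.appr k • (⟨T₀, h₀⟩ : lev hI 2) := by
        refine e.injective ?_
        rw [map_sub, map_nsmul, map_nsmul, he, AddEquiv.apply_symm_apply, nsmul_one, nsmul_eq_mul]
        show β - _ = _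
        have hidx' : (((lev hI 2).index : ℕ) : ℤ_[p]) = (p : ℤ_[p]) ^ a * u := by
          rw [hidx]; push_cast; rfl
        rw [Nat.cast_mul, hidx', Nat.cast_pow]
        linear_combination hd - ((p : ℤ_[p]) ^ k * d) * IsUnit.mul_val_inv hunit
      have := congrArg Subtype.val hL
      rw [AddSubgroup.coe_sub, AddSubgroup.coe_nsmul, AddSubgroup.coe_nsmul] at this
      rw [nsmul_sub, ← mul_nsmul']
      exact this
    have hX' : (lev hI 2).index • j (P - p ^ n • (R : (atField W ℚ_[p]).toAffine.Point)) =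
        toLocal p (β.appr k • P₀) := by
      rw [← map_nsmul, hX, map_nsmul, map_nsmul, hT₀]
    obtain ⟨Q, hQ⟩ :=
      exists_toLocal_of_nsmul (lev_index_ne_zero (intCoeff_atField (W := W) ℚ_[p]) 2) hX'
    have hQ' : ι ⟨Q, (mem_localFixed p W).2 (smul_eq_of_toLocal hQ.symm)⟩ =
        P - p ^ n • (R : (atField W ℚ_[p]).toAffine.Point) := hj (by rw [hι]; exact hQ)
    rw [show P = (P - p ^ n • (R : (atField W ℚ_[p]).toAffine.Point)) +
      p ^ n • (R : (atField W ℚ_[p]).toAffine.Point) from (sub_add_cancel _ _).symm]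
    exact AddSubgroup.add_mem_sup ⟨_, hQ'⟩ ⟨_, rfl⟩
  rw [mulIndex, ← hcomap, AddSubgroup.index_comap]
  rw [← AddSubgroup.relIndex_sup_left, sup_comm, hsup, AddSubgroup.relIndex_top_right]

/-- **The number of Kummer classes.** -/
theorem kummer_classes_card (n : ℕ) :
    ((mulBy (Pts W) (p ^ n)).ker.map (diffHom p W)).relIndex
        ((divFixed p W n).map (diffHom p W)) =
      torCard (atField W ℚ_[p]).toAffine.Point (p ^ n) * p ^ n := by
  set f := mulBy (Pts W) (p ^ n)
  have hle : localFixed p W ≤ divFixed p W n := fun R hR => nsmul_mem hR _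
  have hT : f.ker ≤ divFixed p W n := fun R hR => by
    show f R ∈ localFixed p W
    rw [AddMonoidHom.mem_ker.1 hR]
    exact zero_mem _
  have hsurj : (divFixed p W n).map f = localFixed p W := by
    refine le_antisymm (fun x ⟨R, hR, e⟩ => e ▸ hR) fun x hx => ?_
    obtain ⟨R, hR⟩ := FA.PointDiv.exists_div W (pow_ne_zero n hp.out.ne_zero) x
    exact ⟨R, show p ^ n • R ∈ localFixed p W by rwa [hR], hR⟩
  rw [AddSubgroup.relIndex_map_map, sup_eq_left.2 hle]
  have h1 : ((f.ker ⊔ localFixed p W).map f).relIndex ((divFixed p W n).map f) =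
      (f.ker ⊔ localFixed p W).relIndex (divFixed p W n) := by
    rw [AddSubgroup.relIndex_map_map, sup_eq_left.2 hT, sup_eq_left.2 le_sup_left]
  rw [← h1, hsurj, AddSubgroup.map_sup,
    (AddSubgroup.map_eq_bot_iff _).2 le_rfl, bot_sup_eq]
  have h2 : ((localFixed p W).map f).addSubgroupOf (localFixed p W) =
      (mulBy (localFixed p W) (p ^ n)).range := by
    ext R
    refine ⟨fun ⟨Q, hQ, e⟩ => ⟨⟨Q, hQ⟩, Subtype.ext e⟩, ?_⟩
    rintro ⟨Q, rfl⟩
    exact ⟨Q.1, Q.2, rfl⟩
  rw [AddSubgroup.relIndex, h2]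
  show mulIndex (localFixed p W) (p ^ n) = _
  rw [mulIndex_localFixed, mulIndex_point p _ (pow_ne_zero n hp.out.ne_zero), Module.finrank_self,
    one_mul, padicValNat.prime_pow]

end FA.LocalDescent
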