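import Fermat.Agent.LocalPts.Divisible
import Fermat.Agent.SupersingularDeRham.Chord
import Mathlib.Analysis.Normed.Ring.Ultra

/-!
# The parameter `-x/y` on the kernel of reduction over any local field

The parameter is a bijection of the kernel of reduction with the open unit ball. The parameter of a
sum differs from the sum of the parameters by at most the product of their norms, so the distance of
the parameters is invariant under translation. Multiplication by `n` maps the ball of radius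
`r < ‖n‖` onto the ball of radius `‖n‖ r`, bijectively.
-/

set_option autoImplicit false
set_option linter.unusedSectionVars false

noncomputable section

open WeierstrassCurve FA.EC FA.Local FA.SSDR FA.LocalPts
open scoped Classical

namespace FA.LocalDescent

variable {K : Type*} [NormedField K] [IsUltrametricDist K] {W : WeierstrassCurve K} [W.IsElliptic]
  (hI : IntCoeff (NormedField.valuation (K := K)) W.toAffine)

/-- A linear combination with coefficients of norm at most one. -/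
theorem norm_mul_le_of_le_one {c x : K} {B : ℝ} (hc : ‖c‖ ≤ 1) (hx : ‖x‖ ≤ B) : ‖c * x‖ ≤ B := by
  rw [norm_mul]; exact (mul_le_of_le_one_left (norm_nonneg _) hc).trans hx

theorem norm_add_le_of {x y : K} {B : ℝ} (hx : ‖x‖ ≤ B) (hy : ‖y‖ ≤ B) : ‖x + y‖ ≤ B :=
  (IsUltrametricDist.norm_add_le_max x y).trans (max_le hx hy)

theorem norm_sub_le_of {x y : K} {B : ℝ} (hx : ‖x‖ ≤ B) (hy : ‖y‖ ≤ B) : ‖x - y‖ ≤ B := by
  rw [sub_eq_add_neg]; exact norm_add_le_of hx (by rwa [norm_neg])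

theorem norm_eq_one_of_sub {x : K} (h : ‖x - 1‖ < 1) : ‖x‖ = 1 := by
  have := IsUltrametricDist.norm_add_eq_max_of_norm_ne_norm (x := x - 1) (y := 1)
    (by rw [norm_one]; exact h.ne)
  rwa [sub_add_cancel, norm_one, max_eq_right h.le] at this

include hI

theorem norm_coeffs : ‖W.a₁‖ ≤ 1 ∧ ‖W.a₂‖ ≤ 1 ∧ ‖W.a₃‖ ≤ 1 ∧ ‖W.a₄‖ ≤ 1 ∧ ‖W.a₆‖ ≤ 1 :=
  ⟨hI.h₁, hI.h₂, hI.h₃, hI.h₄, hI.h₆⟩

/-- Small zeros of the equation in `z`, `w` have `‖w‖ = ‖z‖ ^ 3`. -/
theorem norm_w {z w : K} (h : OnCurve W z w) (hz : ‖z‖ < 1) (hw : ‖w‖ < 1) :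
    ‖w‖ = ‖z‖ ^ 3 := by
  obtain ⟨h1, h2, h3, h4, h6⟩ := norm_coeffs hI
  set t := W.a₁ * z + W.a₂ * z ^ 2 + W.a₃ * w + W.a₄ * (z * w) + W.a₆ * w ^ 2 with ht
  have hB : ‖t‖ ≤ max ‖z‖ ‖w‖ := by
    have hzm := le_max_left ‖z‖ ‖w‖
    have hwm := le_max_right ‖z‖ ‖w‖
    have sq_le : ∀ {u : K}, ‖u‖ < 1 → ‖u ^ 2‖ ≤ ‖u‖ := fun hu => by
      rw [norm_pow]; exact pow_le_of_le_one (norm_nonneg _) hu.le two_ne_zero
    refine norm_add_le_of (norm_add_le_of (norm_add_le_of (norm_add_le_of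
      (norm_mul_le_of_le_one h1 hzm) (norm_mul_le_of_le_one h2 ((sq_le hz).trans hzm)))
      (norm_mul_le_of_le_one h3 hwm)) (norm_mul_le_of_le_one h4 ?_))
      (norm_mul_le_of_le_one h6 ((sq_le hw).trans hwm))
    rw [norm_mul]; exact (mul_le_of_le_one_left (norm_nonneg _) hz.le).trans hwm
  have hu : ‖1 - t‖ = 1 := norm_eq_one_of_sub (by
    rw [sub_sub_cancel_left, norm_neg]; exact hB.trans_lt (max_lt hz hw))
  have e : w * (1 - t) = z ^ 3 := by
    simp only [OnCurve] at h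
    simp only [ht]
    linear_combination h
  rw [← norm_pow, ← e, norm_mul, hu, mul_one]

/-- **The sum of two small zeros.** -/
theorem exists_add {a b wa wb : K} (ha : OnCurve W a wa) (hb : OnCurve W b wb) (ha1 : ‖a‖ < 1)
    (hwa1 : ‖wa‖ < 1) (hb1 : ‖b‖ < 1) (hwb1 : ‖wb‖ < 1) :
    ∃ z w, OnCurve W z w ∧ ‖z‖ < 1 ∧ ‖w‖ < 1 ∧ aff W z w = aff W a wa + aff W b wb ∧
      ‖z - a - b‖ ≤ ‖a‖ * ‖b‖ := by
  obtain ⟨h1, h2, h3, h4, h6⟩ := norm_coeffs hI
  have na := norm_w hI ha ha1 hwa1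
  have nb := norm_w hI hb hb1 hwb1
  set R := max ‖a‖ ‖b‖ with hR
  have hR1 : R < 1 := max_lt ha1 hb1
  have hR0 : 0 ≤ R := le_max_of_le_left (norm_nonneg _)
  have haR : ‖a‖ ≤ R := le_max_left _ _
  have hbR : ‖b‖ ≤ R := le_max_right _ _
  have hwaR : ‖wa‖ ≤ R ^ 3 := na.trans_le (pow_le_pow_left₀ (norm_nonneg _) haR 3)
  have hwbR : ‖wb‖ ≤ R ^ 3 := nb.trans_le (pow_le_pow_left₀ (norm_nonneg _) hbR 3)
  have R32 : R ^ 3 ≤ R ^ 2 := pow_le_pow_of_le_one hR0 hR1.le (by norm_num)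
  have R21 : R ^ 2 ≤ R := pow_le_of_le_one hR0 hR1.le two_ne_zero
  set N := a ^ 2 + a * b + b ^ 2 + W.a₁ * wb + W.a₂ * ((a + b) * wb) + W.a₄ * wb ^ 2 with hN
  set S := W.a₁ * a + W.a₂ * a ^ 2 + W.a₃ * (wa + wb) + W.a₄ * (a * (wa + wb)) +
    W.a₆ * (wa ^ 2 + wa * wb + wb ^ 2) with hS
  have hS1 : ‖S‖ ≤ R := by
    have hw1 : ‖wa + wb‖ ≤ R := norm_add_le_of (hwaR.trans (R32.trans R21))
      (hwbR.trans (R32.trans R21))
    refine norm_add_le_of (norm_add_le_of (norm_add_le_of (norm_add_le_of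
      (norm_mul_le_of_le_one h1 haR) (norm_mul_le_of_le_one h2 ?_))
      (norm_mul_le_of_le_one h3 hw1)) (norm_mul_le_of_le_one h4
        (norm_mul_le_of_le_one ha1.le hw1))) (norm_mul_le_of_le_one h6 ?_)
    · rw [norm_pow]; exact (pow_le_pow_left₀ (norm_nonneg _) haR 2).trans R21
    · refine norm_add_le_of (norm_add_le_of ?_ (norm_mul_le_of_le_one hwa1.le ?_)) ?_
      · rw [norm_pow]
        exact (pow_le_of_le_one (norm_nonneg _) hwa1.le two_ne_zero).trans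
          (hwaR.trans (R32.trans R21))
      · exact hwbR.trans (R32.trans R21)
      · rw [norm_pow]
        exact (pow_le_of_le_one (norm_nonneg _) hwb1.le two_ne_zero).trans
          (hwbR.trans (R32.trans R21))
  have hS' : ‖1 - S‖ = 1 := norm_eq_one_of_sub (by
    rw [sub_sub_cancel_left, norm_neg]; exact hS1.trans_lt hR1)
  have hS0 : 1 - S ≠ 0 := fun h => by rw [h, norm_zero] at hS'; exact zero_ne_one hS'
  have hN2 : ‖N‖ ≤ R ^ 2 := by
    have sq : ∀ {u : K}, ‖u‖ ≤ R → ‖u ^ 2‖ ≤ R ^ 2 := fun hu => by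
      rw [norm_pow]; exact pow_le_pow_left₀ (norm_nonneg _) hu 2
    have hwb2 : ‖wb‖ ≤ R ^ 2 := hwbR.trans R32
    refine norm_add_le_of (norm_add_le_of (norm_add_le_of (norm_add_le_of (norm_add_le_of
      (sq haR) ?_) (sq hbR)) (norm_mul_le_of_le_one h1 hwb2))
      (norm_mul_le_of_le_one h2 (norm_mul_le_of_le_one
        (norm_add_le_of ha1.le hb1.le) hwb2))) (norm_mul_le_of_le_one h4 (sq (hwb2.trans R21)))
    rw [norm_mul, _root_.sq]; exact mul_le_mul haR hbR (norm_nonneg _) hR0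
  set l := N / (1 - S) with hl
  have hl2 : ‖l‖ ≤ R ^ 2 := by rw [hl, norm_div, hS', div_one]; exact hN2
  have hlS : l * (1 - S) = N := div_mul_cancel₀ _ hS0
  set m := wa - l * a with hm
  have hwa' : wa = l * a + m := by rw [hm]; ring
  have hwb' : wb = l * b + m := by
    have key : (wa - wb - l * (a - b)) * (1 - S) = 0 := by
      simp only [OnCurve] at ha hb
      simp only [hS, hN] at hlS ⊢
      linear_combination ha - hb - (a - b) * hlS
    have := (mul_eq_zero.1 key).resolve_right hS0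
    rw [hm]; linear_combination -this
  have hmab : ‖m‖ ≤ ‖a‖ * ‖b‖ := by
    rcases le_total ‖a‖ ‖b‖ with h | h
    · have e : R = ‖b‖ := max_eq_right h
      rw [hm]
      refine norm_sub_le_of ?_ ?_
      · rw [na, pow_succ']
        exact mul_le_mul_of_nonneg_left
          ((pow_le_of_le_one (norm_nonneg _) ha1.le two_ne_zero).trans h) (norm_nonneg _)
      · rw [norm_mul, mul_comm ‖a‖]
        exact mul_le_mul_of_nonneg_right (hl2.trans (R21.trans e.le)) (norm_nonneg _)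
    · have e : R = ‖a‖ := max_eq_left h
      rw [show m = wb - l * b by rw [hwb']; ring, mul_comm ‖a‖ ‖b‖]
      refine norm_sub_le_of ?_ ?_
      · rw [nb, pow_succ']
        exact mul_le_mul_of_nonneg_left
          ((pow_le_of_le_one (norm_nonneg _) hb1.le two_ne_zero).trans h) (norm_nonneg _)
      · rw [norm_mul, mul_comm ‖b‖]
        exact mul_le_mul_of_nonneg_right (hl2.trans (R21.trans e.le)) (norm_nonneg _)
  have hmR : ‖m‖ ≤ R ^ 2 := hmab.trans (by
    rw [_root_.sq]; exact mul_le_mul haR hbR (norm_nonneg _) hR0)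
  have hl1 : ‖l‖ ≤ R := hl2.trans R21
  have hm1 : ‖m‖ ≤ R := hmR.trans R21
  set A := lineA W l with hA
  have hAn : ‖A‖ = 1 := norm_eq_one_of_sub (by
    rw [hA, lineA, show 1 + W.a₂ * l + W.a₄ * l ^ 2 + W.a₆ * l ^ 3 - 1 =
      (W.a₂ + W.a₄ * l + W.a₆ * (l * l)) * l by ring, norm_mul]
    refine (mul_le_of_le_one_left (norm_nonneg _) ?_).trans_lt (hl1.trans_lt hR1)
    exact norm_add_le_of (norm_add_le_of h2 (norm_mul_le_of_le_one h4 (hl1.trans hR1.le)))
      (norm_mul_le_of_le_one h6 (norm_mul_le_of_le_one (hl1.trans hR1.le) (hl1.trans hR1.le))))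
  have hA0 : A ≠ 0 := fun h => by rw [h, norm_zero] at hAn; exact zero_ne_one hAn
  have hchord : lineA W l * (a ^ 2 + a * b + b ^ 2) + lineB W l m * (a + b) + lineC W l m = 0 := by
    simp only [hS, hN] at hlS
    rw [hwa', hwb'] at hlS
    simp only [lineA, lineB, lineC]
    linear_combination -hlS
  set B := lineB W l m with hB
  set z₃ := (-(A * (a + b)) - B) / A with hz₃
  have hz : A * z₃ = -(A * (a + b)) - B := mul_div_cancel₀ _ hA0
  obtain ⟨hc, hadd⟩ := aff_add W (hwa' ▸ ha) (hwb' ▸ hb) hA0 hchord hz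
  have lt1 : ∀ {u : K}, ‖u‖ ≤ R → ‖u‖ < 1 := fun hu => hu.trans_lt hR1
  have hBR : ‖B‖ ≤ R := by
    rw [hB, lineB, show W.a₁ * l + W.a₂ * m + W.a₃ * l ^ 2 + 2 * W.a₄ * l * m +
      3 * W.a₆ * l ^ 2 * m = W.a₁ * l + W.a₂ * m + (W.a₃ * l) * l +
      ((2 : ℕ) : K) * (W.a₄ * (l * m)) + ((3 : ℕ) : K) * (W.a₆ * ((l * l) * m)) by push_cast; ring]
    refine norm_add_le_of (norm_add_le_of (norm_add_le_of (norm_add_le_of
      (norm_mul_le_of_le_one h1 hl1) (norm_mul_le_of_le_one h2 hm1))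
      (norm_mul_le_of_le_one (norm_mul_le_of_le_one h3 (lt1 hl1).le) hl1))
      (norm_mul_le_of_le_one (IsUltrametricDist.norm_natCast_le_one K 2)
        (norm_mul_le_of_le_one h4 (norm_mul_le_of_le_one (lt1 hl1).le hm1))))
      (norm_mul_le_of_le_one (IsUltrametricDist.norm_natCast_le_one K 3)
        (norm_mul_le_of_le_one h6 (norm_mul_le_of_le_one
          (norm_mul_le_of_le_one (lt1 hl1).le (lt1 hl1).le) hm1)))
  have hzR : ‖z₃‖ ≤ R := by
    rw [hz₃, norm_div, hAn, div_one]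
    refine norm_sub_le_of ?_ hBR
    rw [norm_neg]; exact norm_mul_le_of_le_one hAn.le (norm_add_le_of haR hbR)
  set w₃ := l * z₃ + m with hw₃
  have hwR : ‖w₃‖ ≤ R := norm_add_le_of (norm_mul_le_of_le_one (lt1 hl1).le hzR) hm1
  set den := 1 - W.a₁ * z₃ - W.a₃ * w₃ with hden
  have hdn : ‖den‖ = 1 := norm_eq_one_of_sub (by
    rw [hden, show 1 - W.a₁ * z₃ - W.a₃ * w₃ - 1 = -(W.a₁ * z₃ + W.a₃ * w₃) by ring, norm_neg]
    exact (norm_add_le_of (norm_mul_le_of_le_one h1 hzR)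
      (norm_mul_le_of_le_one h3 hwR)).trans_lt hR1)
  have hd0 : den ≠ 0 := fun h => by rw [h, norm_zero] at hdn; exact zero_ne_one hdn
  have hd : den * den⁻¹ = 1 := mul_inv_cancel₀ hd0
  have hdi : ‖den⁻¹‖ = 1 := by rw [norm_inv, hdn, inv_one]
  refine ⟨-(z₃ * den⁻¹), -(w₃ * den⁻¹), hc.negPair W hd, ?_, ?_, ?_, ?_⟩
  · rw [norm_neg, norm_mul, hdi, mul_one]; exact lt1 hzR
  · rw [norm_neg, norm_mul, hdi, mul_one]; exact lt1 hwR
  · rw [aff_neg W hc hd, hwa', hwb', ← hadd]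
  · set k := W.a₁ + W.a₃ * l with hk
    set β := W.a₂ + 2 * W.a₄ * l + 3 * W.a₆ * l ^ 2 with hβ
    set γ := W.a₁ + 2 * W.a₃ * l + W.a₄ * m + 3 * W.a₆ * l * m with hγ
    have key : A * den * (-(z₃ * den⁻¹) - a - b) =
        k * (-(A * (a * b)) + m * γ) + m * β + (a + b) * W.a₃ * m * A := by
      have e : den * (-(z₃ * den⁻¹) - a - b) = -z₃ - (a + b) * den := by
        linear_combination -z₃ * hd
      rw [mul_assoc, e]
      simp only [hB, hA, hk, hβ, hγ, hden, hw₃, lineA, lineB, lineC] at hz hchord ⊢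
      linear_combination (-1 + (a + b) * (W.a₁ + W.a₃ * l)) * hz - (W.a₁ + W.a₃ * l) * hchord
    have hl1' := (lt1 hl1).le
    have nk : ‖k‖ ≤ 1 := norm_add_le_of h1 (norm_mul_le_of_le_one h3 hl1')
    have n2 : ‖(2 : K)‖ ≤ 1 := IsUltrametricDist.norm_natCast_le_one K 2
    have n3 : ‖(3 : K)‖ ≤ 1 := IsUltrametricDist.norm_natCast_le_one K 3
    have nβ : ‖β‖ ≤ 1 := norm_add_le_of (norm_add_le_of h2
      (norm_mul_le_of_le_one (norm_mul_le_of_le_one n2 h4) hl1'))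
      (norm_mul_le_of_le_one (norm_mul_le_of_le_one n3 h6)
        (by rw [norm_pow]; exact pow_le_one₀ (norm_nonneg _) hl1'))
    have nγ : ‖γ‖ ≤ 1 := norm_add_le_of (norm_add_le_of (norm_add_le_of h1
      (norm_mul_le_of_le_one (norm_mul_le_of_le_one n2 h3) hl1'))
      (norm_mul_le_of_le_one h4 (lt1 hm1).le))
      (norm_mul_le_of_le_one (norm_mul_le_of_le_one (norm_mul_le_of_le_one n3 h6) hl1')
        (lt1 hm1).le)
    have hn : ‖k * (-(A * (a * b)) + m * γ) + m * β + (a + b) * W.a₃ * m * A‖ ≤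
        ‖a‖ * ‖b‖ := by
      refine norm_add_le_of (norm_add_le_of (norm_mul_le_of_le_one nk (norm_add_le_of ?_ ?_)) ?_) ?_
      · rw [norm_neg, norm_mul, hAn, one_mul, norm_mul]
      · rw [mul_comm]; exact norm_mul_le_of_le_one nγ hmab
      · rw [mul_comm]; exact norm_mul_le_of_le_one nβ hmab
      · rw [mul_comm _ A]
        exact norm_mul_le_of_le_one hAn.le (norm_mul_le_of_le_one
          (norm_mul_le_of_le_one (norm_add_le_of ha1.le hb1.le) h3) hmab)
    rw [← key, norm_mul, norm_mul, hAn, hdn, one_mul, one_mul] at hn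
    exact hn

/-- **Every small `z` belongs to a zero.** -/
theorem exists_onCurve [ProperSpace K] {z : K} (hz : ‖z‖ < 1) :
    ∃ w, OnCurve W z w ∧ ‖w‖ < 1 := by
  obtain ⟨h1, h2, h3, h4, h6⟩ := norm_coeffs hI
  set f : K → K := fun w => z ^ 3 + W.a₁ * z * w + W.a₂ * z ^ 2 * w + W.a₃ * w ^ 2 +
    W.a₄ * z * w ^ 2 + W.a₆ * w ^ 3 with hf
  have hz2 : ‖z ^ 2‖ ≤ ‖z‖ := by
    rw [norm_pow]; exact pow_le_of_le_one (norm_nonneg _) hz.le two_ne_zero
  have hlip : ∀ w w', ‖w‖ ≤ ‖z‖ → ‖w'‖ ≤ ‖z‖ → ‖f w - f w'‖ ≤ ‖z‖ * ‖w - w'‖ :=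
      fun w w' hw hw' => by
    rw [show f w - f w' = (W.a₁ * z + W.a₂ * z ^ 2 + W.a₃ * (w + w') + W.a₄ * (z * (w + w')) +
      W.a₆ * (w * w + w * w' + w' * w')) * (w - w') by simp only [hf]; ring, norm_mul]
    refine mul_le_mul_of_nonneg_right ?_ (norm_nonneg _)
    have hs : ‖w + w'‖ ≤ ‖z‖ := norm_add_le_of hw hw'
    refine norm_add_le_of (norm_add_le_of (norm_add_le_of (norm_add_le_of
      (norm_mul_le_of_le_one h1 le_rfl) (norm_mul_le_of_le_one h2 hz2))
      (norm_mul_le_of_le_one h3 hs)) (norm_mul_le_of_le_one h4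
        (norm_mul_le_of_le_one hz.le hs))) (norm_mul_le_of_le_one h6 ?_)
    exact norm_add_le_of (norm_add_le_of (norm_mul_le_of_le_one (hw.trans hz.le) hw)
      (norm_mul_le_of_le_one (hw.trans hz.le) hw')) (norm_mul_le_of_le_one (hw'.trans hz.le) hw')
  have hmap : ∀ w, ‖w‖ ≤ ‖z‖ → ‖f w‖ ≤ ‖z‖ := fun w hw => by
    have h0 : ‖f 0‖ ≤ ‖z‖ := by
      simp only [hf, mul_zero, add_zero, ne_eq, OfNat.ofNat_ne_zero, not_false_eq_true, zero_pow,
        norm_pow]
      exact pow_le_of_le_one (norm_nonneg _) hz.le (by norm_num)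
    have := hlip w 0 hw (by simp)
    rw [sub_zero] at this
    rw [← sub_add_cancel (f w) (f 0)]
    exact norm_add_le_of (this.trans (mul_le_of_le_one_right (norm_nonneg _)
      (hw.trans hz.le))) h0
  obtain ⟨w, hw, hmin⟩ := (isCompact_closedBall (0 : K) ‖z‖).exists_isMinOn
    ⟨0, Metric.mem_closedBall_self (norm_nonneg _)⟩
    (f := fun w => ‖f w - w‖) (Continuous.continuousOn (by simp only [hf]; fun_prop))
  rw [mem_closedBall_zero_iff] at hw
  refine ⟨w, ?_, hw.trans_lt hz⟩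
  by_contra h
  have hne : 0 < ‖f w - w‖ := norm_pos_iff.2 (sub_ne_zero.2 fun h' => h h'.symm)
  have h1' : ‖f w - w‖ ≤ ‖f (f w) - f w‖ := hmin (mem_closedBall_zero_iff.2 (hmap w hw))
  exact absurd (h1'.trans (hlip _ _ (hmap w hw) hw)) (not_le.2 (mul_lt_of_lt_one_left hne hz))

omit hI in
/-- The parameter, zero at the origin. -/
def par : W.toAffine.Point → K
  | .zero => 0
  | .some x y _ => -x / y

omit hI in
theorem par_aff {z w : K} (h : OnCurve W z w) : par (aff W z w) = z := by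
  by_cases hw : w = 0
  · rw [hw, aff_zero]; exact (h.eq_zero W hw).symm
  · rw [aff_eq_some W h hw]
    show -(z / w) / (-1 / w) = z
    field_simp

theorem aff_mem_e1 {z w : K} (h : OnCurve W z w) (hz : ‖z‖ < 1) (hw : ‖w‖ < 1) :
    aff W z w ∈ e1Subgroup hI := by
  by_cases h0 : w = 0
  · rw [h0, aff_zero]; exact zero_mem _
  rw [mem_e1Subgroup, e1_iff, aff_eq_some W h h0, xc_some]
  refine Or.inr ?_
  have hz0 : z ≠ 0 := fun e => h0 (norm_eq_zero.1 (by rw [norm_w hI h hz hw, e]; simp))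
  rw [norm_div, norm_w hI h hz hw, one_lt_div₀ (by positivity)]
  calc ‖z‖ ^ 3 < ‖z‖ ^ 1 := pow_lt_pow_right_of_lt_one₀ (norm_pos_iff.2 hz0) hz (by norm_num)
    _ = ‖z‖ := pow_one _

theorem exists_aff {P : W.toAffine.Point} (hP : P ∈ e1Subgroup hI) :
    ∃ w, OnCurve W (par P) w ∧ ‖par P‖ < 1 ∧ ‖w‖ < 1 ∧ aff W (par P) w = P := by
  rcases P with _ | ⟨x, y, h⟩
  · exact ⟨0, by simp [par, OnCurve], by simp [par], by simp, aff_zero _ _⟩
  rw [mem_e1Subgroup, e1_some] at hP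
  obtain ⟨hxy, -⟩ := large_of_one_lt hI h.1 hP
  have hx : 1 < ‖x‖ := by exact_mod_cast hP
  have hy : ‖x‖ < ‖y‖ := by exact_mod_cast hxy
  have hy0 : y ≠ 0 := norm_pos_iff.1 ((norm_nonneg _).trans_lt hy)
  have he := (Affine.equation_iff _ _).1 h.1
  have hoc : OnCurve W (-x / y) (-1 / y) := by
    simp only [OnCurve]
    field_simp
    linear_combination -he
  refine ⟨-1 / y, hoc, ?_, ?_, ?_⟩
  · show ‖-x / y‖ < 1
    rw [norm_div, norm_neg, div_lt_one ((norm_nonneg _).trans_lt hy)]; exact hy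
  · rw [norm_div, norm_neg, norm_one, div_lt_one ((norm_nonneg _).trans_lt hy)]
    exact hx.trans hy
  · show aff W (-x / y) (-1 / y) = _
    rw [aff_eq_some W hoc (div_ne_zero (neg_ne_zero.2 one_ne_zero) hy0), Affine.Point.some.injEq]
    constructor <;> field_simp

/-- **The parameter of a sum.** -/
theorem norm_par_add {P Q : W.toAffine.Point} (hP : P ∈ e1Subgroup hI) (hQ : Q ∈ e1Subgroup hI) :
    ‖par (P + Q) - par P - par Q‖ ≤ ‖par P‖ * ‖par Q‖ := by
  obtain ⟨wa, ha, ha1, hwa1, eP⟩ := exists_aff hI hP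
  obtain ⟨wb, hb, hb1, hwb1, eQ⟩ := exists_aff hI hQ
  obtain ⟨z, w, h, -, -, e, hle⟩ := exists_add hI ha hb ha1 hwa1 hb1 hwb1
  rw [eP, eQ] at e
  rwa [← e, par_aff h]

theorem norm_par_lt_one {P : W.toAffine.Point} (hP : P ∈ e1Subgroup hI) : ‖par P‖ < 1 :=
  let ⟨_, _, h, _, _⟩ := exists_aff hI hP; h

theorem eq_zero_of_par {P : W.toAffine.Point} (hP : P ∈ e1Subgroup hI) (h : par P = 0) :
    P = 0 := by
  obtain ⟨w, hw, h1, hw1, e⟩ := exists_aff hI hP
  have hw0 : w = 0 := norm_eq_zero.1 (by rw [norm_w hI hw h1 hw1, h]; simp)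
  rw [← e, hw0, aff_zero]

/-- **The distance of the parameters** is the norm of the parameter of the difference. -/
theorem norm_par_sub {P Q : W.toAffine.Point} (hP : P ∈ e1Subgroup hI) (hQ : Q ∈ e1Subgroup hI) :
    ‖par P - par Q‖ = ‖par (P - Q)‖ := by
  rcases eq_or_ne (par (P - Q)) 0 with h0 | h0
  · rw [sub_eq_zero.1 (eq_zero_of_par hI (sub_mem hP hQ) h0), sub_self, sub_self,
      show par (0 : W.toAffine.Point) = 0 from rfl]
  have h := norm_par_add hI (sub_mem hP hQ) hQ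
  rw [sub_add_cancel] at h
  have hlt : ‖par P - par (P - Q) - par Q‖ < ‖par (P - Q)‖ :=
    h.trans_lt (mul_lt_of_lt_one_right (norm_pos_iff.2 h0) (norm_par_lt_one hI hQ))
  rw [show par P - par Q = (par P - par (P - Q) - par Q) + par (P - Q) by ring,
    IsUltrametricDist.norm_add_eq_max_of_norm_ne_norm hlt.ne, max_eq_right hlt.le]

theorem norm_par_neg {P : W.toAffine.Point} (hP : P ∈ e1Subgroup hI) :
    ‖par (-P)‖ = ‖par P‖ := by
  have h := norm_par_sub hI (e1Subgroup hI).zero_mem hP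
  rw [show par (0 : W.toAffine.Point) = 0 from rfl, zero_sub, norm_neg, zero_sub] at h
  exact h.symm

theorem norm_par_nsmul {P : W.toAffine.Point} (hP : P ∈ e1Subgroup hI) (n : ℕ) :
    ‖par (n • P) - n * par P‖ ≤ ‖par P‖ * ‖par P‖ := by
  induction n with
  | zero =>
    rw [zero_nsmul, show par (0 : W.toAffine.Point) = 0 from rfl, Nat.cast_zero, zero_mul,
      sub_self, norm_zero]
    positivity
  | succ n ih =>
    have hn : ‖par (n • P)‖ ≤ ‖par P‖ := by
      rw [← sub_add_cancel (par (n • P)) (n * par P)]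
      exact norm_add_le_of (ih.trans (mul_le_of_le_one_left (norm_nonneg _)
        (norm_par_lt_one hI hP).le))
        (norm_mul_le_of_le_one (IsUltrametricDist.norm_natCast_le_one K n) le_rfl)
    rw [succ_nsmul, show par (n • P + P) - ((n + 1 : ℕ) : K) * par P =
      (par (n • P + P) - par (n • P) - par P) + (par (n • P) - n * par P) by push_cast; ring]
    exact norm_add_le_of ((norm_par_add hI (nsmul_mem hP n) hP).trans
      (mul_le_mul_of_nonneg_right hn (norm_nonneg _))) ih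

/-- Below the norm of `n` multiplication by `n` scales the parameter exactly. -/
theorem norm_par_nsmul_eq {P : W.toAffine.Point} (hP : P ∈ e1Subgroup hI) {n : ℕ}
    (hn : ‖par P‖ < ‖(n : K)‖) : ‖par (n • P)‖ = ‖(n : K)‖ * ‖par P‖ := by
  rcases eq_or_ne (par P) 0 with h0 | h0
  · rw [eq_zero_of_par hI hP h0, nsmul_zero, show par (0 : W.toAffine.Point) = 0 from rfl,
      norm_zero, mul_zero]
  have hlt : ‖par (n • P) - n * par P‖ < ‖(n : K) * par P‖ := by
    rw [norm_mul]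
    exact (norm_par_nsmul hI hP n).trans_lt (mul_lt_mul_of_pos_right hn (norm_pos_iff.2 h0))
  rw [← norm_mul, ← sub_add_cancel (par (n • P)) (n * par P),
    IsUltrametricDist.norm_add_eq_max_of_norm_ne_norm hlt.ne, max_eq_right hlt.le]

/-- The points of parameter at most `r`. -/
def deep (r : ℝ) (hr : 0 ≤ r) : AddSubgroup W.toAffine.Point where
  carrier := {P | P ∈ e1Subgroup hI ∧ ‖par P‖ ≤ r}
  zero_mem' := ⟨zero_mem _, by simpa [show par (0 : W.toAffine.Point) = 0 from rfl] using hr⟩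
  add_mem' := fun {P Q} ⟨hP, hP'⟩ ⟨hQ, hQ'⟩ => ⟨add_mem hP hQ, by
    rw [← sub_neg_eq_add, ← norm_par_sub hI hP (neg_mem hQ)]
    exact norm_sub_le_of hP' ((norm_par_neg hI hQ).trans_le hQ')⟩
  neg_mem' := fun {P} ⟨hP, hP'⟩ => ⟨neg_mem hP, (norm_par_neg hI hP).trans_le hP'⟩

/-- **Multiplication by `n` is onto the ball of radius `‖n‖ r`.** -/
theorem exists_nsmul_eq [ProperSpace K] {r : ℝ} (hr0 : 0 ≤ r) {n : ℕ} (hr : r < ‖(n : K)‖)
    {R : W.toAffine.Point} (hR : R ∈ deep hI (‖(n : K)‖ * r) (mul_nonneg (norm_nonneg _) hr0)) :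
    ∃ P ∈ deep hI r hr0, n • P = R := by
  have hn1 : ‖(n : K)‖ ≤ 1 := IsUltrametricDist.norm_natCast_le_one K n
  have hpt : ∀ z : K, ‖z‖ ≤ r → ∃ P ∈ deep hI r hr0, par P = z := fun z hz => by
    have hz1 : ‖z‖ < 1 := hz.trans_lt (hr.trans_le hn1)
    obtain ⟨w, hw, hw1⟩ := exists_onCurve hI hz1
    exact ⟨aff W z w, ⟨aff_mem_e1 hI hw hz1 hw1, by rwa [par_aff hw]⟩, par_aff hw⟩
  choose! pt hpt hparpt using hpt
  have hcont : ContinuousOn (fun z => ‖par (R - n • pt z)‖) (Metric.closedBall (0 : K) r) := by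
    refine Metric.continuousOn_iff.2 fun z hz ε hε => ⟨ε, hε, fun z' hz' hd => ?_⟩
    rw [mem_closedBall_zero_iff] at hz hz'
    rw [Real.dist_eq]
    refine lt_of_le_of_lt ?_ hd
    rw [dist_eq_norm]
    have hm := fun u (hu : ‖u‖ ≤ r) => sub_mem hR.1 (nsmul_mem (hpt u hu).1 n)
    have hm1 := sub_mem (hm z' hz') (hm z hz)
    rw [show ‖z' - z‖ = ‖par (pt z' - pt z)‖ by
      rw [← norm_par_sub hI (hpt z' hz').1 (hpt z hz).1, hparpt z' hz', hparpt z hz]]
    refine (abs_norm_sub_norm_le _ _).trans ((norm_par_sub hI (hm z' hz') (hm z hz)).trans_le ?_)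
    rw [show R - n • pt z' - (R - n • pt z) = n • (pt z - pt z') by rw [nsmul_sub]; abel]
    have hd1 := sub_mem (hpt z hz).1 (hpt z' hz').1
    rw [← norm_par_neg hI (sub_mem (hpt z' hz').1 (hpt z hz).1), neg_sub]
    rcases lt_or_ge ‖par (pt z - pt z')‖ ‖(n : K)‖ with h | h
    · rw [norm_par_nsmul_eq hI hd1 h]; exact mul_le_of_le_one_left (norm_nonneg _) hn1
    · exact absurd ((deep hI r hr0).sub_mem (hpt z hz) (hpt z' hz')).2 (not_le.2 (hr.trans_le h))
  obtain ⟨z, hz, hmin⟩ := (isCompact_closedBall (0 : K) r).exists_isMinOn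
    ⟨0, Metric.mem_closedBall_self hr0⟩ hcont
  rw [mem_closedBall_zero_iff] at hz
  refine ⟨pt z, hpt z hz, ?_⟩
  by_contra hne
  set D := R - n • pt z
  have hn0 : 0 < ‖(n : K)‖ := hr0.trans_lt hr
  have hDm : D ∈ e1Subgroup hI := sub_mem hR.1 (nsmul_mem (hpt z hz).1 n)
  have hD0 : par D ≠ 0 := fun h => hne (sub_eq_zero.1 (eq_zero_of_par hI hDm h)).symm
  have hDr : ‖par D‖ ≤ ‖(n : K)‖ * r := by
    rw [← norm_par_sub hI hR.1 (nsmul_mem (hpt z hz).1 n)]
    refine norm_sub_le_of hR.2 ?_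
    rw [norm_par_nsmul_eq hI (hpt z hz).1 ((hpt z hz).2.trans_lt hr)]
    exact mul_le_mul_of_nonneg_left (hpt z hz).2 (norm_nonneg _)
  have hu : ‖par D / (n : K)‖ ≤ r := by
    rw [norm_div, div_le_iff₀ hn0, mul_comm]; exact hDr
  have hT := hpt _ hu
  have hz' : ‖par (pt z + pt (par D / (n : K)))‖ ≤ r :=
    ((deep hI r hr0).add_mem (hpt z hz) hT).2
  have h1 : ‖par D‖ ≤ ‖par (R - n • pt (par (pt z + pt (par D / (n : K)))))‖ :=
    hmin (mem_closedBall_zero_iff.2 hz')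
  have e : pt (par (pt z + pt (par D / (n : K)))) = pt z + pt (par D / (n : K)) := by
    have hs := add_mem (hpt z hz).1 hT.1
    refine sub_eq_zero.1 (eq_zero_of_par hI (sub_mem (hpt _ hz').1 hs) (norm_eq_zero.1 ?_))
    rw [← norm_par_sub hI (hpt _ hz').1 hs, hparpt _ hz', sub_self, norm_zero]
  rw [e, nsmul_add, sub_add_eq_sub_sub, ← norm_par_sub hI hDm (nsmul_mem hT.1 n)] at h1
  have h2 := norm_par_nsmul hI hT.1 n
  rw [hparpt _ hu, mul_div_cancel₀ _ (norm_pos_iff.1 hn0)] at h2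
  rw [norm_sub_rev] at h1
  refine absurd (h1.trans h2) (not_le.2 ?_)
  calc ‖par D / (n : K)‖ * ‖par D / (n : K)‖ ≤ r * ‖par D / (n : K)‖ :=
        mul_le_mul_of_nonneg_right hu (norm_nonneg _)
    _ < ‖(n : K)‖ * ‖par D / (n : K)‖ :=
        mul_lt_mul_of_pos_right hr (norm_pos_iff.2 (div_ne_zero hD0 (norm_pos_iff.1 hn0)))
    _ = ‖par D‖ := by rw [norm_div, mul_div_cancel₀ _ hn0.ne']

end FA.LocalDescent
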