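import Fermat.Agent.Frob.VarChange
import Fermat.Agent.LocalDescent.Herbrand
import Fermat.Agent.LocalDescent.Parameter

/-!
# The descent index over a finite extension of `ℚ_p`

For an elliptic curve `E` over a finite extension `K` of degree `d` of `ℚ_p` and `m ≥ 1` the index
`[E (K) : m E (K)]` is the number of points killed by `m` times `p ^ (d v_p(m))`.
-/

set_option autoImplicit false
set_option linter.unusedSectionVars false

noncomputable section

open WeierstrassCurve FA.EC FA.Local FA.SSDR FA.LocalPts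
open scoped Classical

namespace FA.LocalDescent

variable (p : ℕ) [hp : Fact p.Prime] {K : Type*} [NormedField K] [NormedAlgebra ℚ_[p] K]
  [FiniteDimensional ℚ_[p] K] [IsUltrametricDist K] [CharZero K] [ProperSpace K]

include hp in
theorem norm_natCast_p : ‖(p : K)‖ = (p : ℝ)⁻¹ := by
  rw [← map_natCast (algebraMap ℚ_[p] K), norm_algebraMap', Padic.norm_p]

/-- A deep subgroup has finite index. -/
theorem deep_index_ne_zero {W : WeierstrassCurve K} [W.IsElliptic]
    (hI : IntCoeff (NormedField.valuation (K := K)) W.toAffine) {r : ℝ} (hr : 0 < r) :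
    (deep hI r hr.le).index ≠ 0 := by
  obtain ⟨T, hT, hcov⟩ := exists_finite_cover hI (max (1 / r ^ 2) 1 + 1)
  have := hT.to_subtype
  have : Finite (W.toAffine.Point ⧸ deep hI r hr.le) := by
    refine Finite.of_surjective
      (fun Q : T => (QuotientAddGroup.mk Q.1 : W.toAffine.Point ⧸ deep hI r hr.le)) fun a => ?_
    obtain ⟨P, rfl⟩ := QuotientAddGroup.mk_surjective a
    obtain ⟨Q, hQ, h⟩ := hcov P
    refine ⟨⟨Q, hQ⟩, QuotientAddGroup.eq.2 ?_⟩
    rw [neg_add_eq_sub]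
    rcases h with h | h
    · rw [h]; exact zero_mem _
    have hx : 1 < ‖xc (P - Q)‖ := (le_max_right _ _).trans_lt ((lt_add_one _).trans_le h)
    have hm : P - Q ∈ e1Subgroup hI := (mem_e1Subgroup hI).2 (e1_iff.2 (Or.inr hx))
    refine ⟨hm, ?_⟩
    generalize P - Q = R at h hx hm
    rcases R with _ | ⟨x, y, hxy⟩
    · simp [par, hr.le]
    rw [xc_some] at h hx
    obtain ⟨h1, h2⟩ := large_of_one_lt hI hxy.1 (x := x) (by exact_mod_cast hx)
    have hy : 0 < ‖y‖ := (norm_nonneg x).trans_lt (by exact_mod_cast h1)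
    have h2' : ‖y‖ ^ 2 = ‖x‖ ^ 3 := by
      simpa [NormedField.valuation_apply] using congrArg NNReal.toReal h2
    refine le_of_pow_le_pow_left₀ two_ne_zero hr.le ?_
    show ‖-x / y‖ ^ 2 ≤ r ^ 2
    rw [norm_div, norm_neg, div_pow, h2', div_le_iff₀ (by positivity)]
    have h3 : 1 / r ^ 2 ≤ ‖x‖ := (le_max_left _ _).trans ((lt_add_one _).le.trans h)
    rw [div_le_iff₀ (by positivity)] at h3
    calc ‖x‖ ^ 2 = ‖x‖ ^ 2 * 1 := (mul_one _).symm
      _ ≤ ‖x‖ ^ 2 * (‖x‖ * r ^ 2) := mul_le_mul_of_nonneg_left h3 (by positivity)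
      _ = r ^ 2 * ‖x‖ ^ 3 := by ring
  exact AddSubgroup.index_ne_zero_of_finite

/-- The index in a deep subgroup is the index in the ball of parameters. -/
theorem mulIndex_deep {W : WeierstrassCurve K} [W.IsElliptic]
    (hI : IntCoeff (NormedField.valuation (K := K)) W.toAffine) {m : ℕ} {r : ℝ} (hr0 : 0 < r)
    (hr : r < ‖(m : K)‖) : mulIndex (deep hI r hr0.le) m = mulIndex (ball K r hr0.le) m := by
  have hm : (m : K) ≠ 0 := norm_pos_iff.1 (hr0.trans hr)
  have hE : ∀ P : deep hI r hr0.le, P ∈ (mulBy _ m).range ↔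
      ‖par (P : W.toAffine.Point)‖ ≤ ‖(m : K)‖ * r := by
    refine fun P => ⟨?_, fun h => ?_⟩
    · rintro ⟨Q, rfl⟩
      show ‖par ((m • Q : deep hI r hr0.le) : W.toAffine.Point)‖ ≤ _
      rw [AddSubgroup.coe_nsmul, norm_par_nsmul_eq hI Q.2.1 (Q.2.2.trans_lt hr)]
      exact mul_le_mul_of_nonneg_left Q.2.2 (norm_nonneg _)
    · obtain ⟨Q, hQ, e⟩ := exists_nsmul_eq hI hr0.le hr (R := (P : W.toAffine.Point)) ⟨P.2.1, h⟩
      exact ⟨⟨Q, hQ⟩, Subtype.ext e⟩
  have hB : ∀ z : ball K r hr0.le, z ∈ (mulBy _ m).range ↔ ‖(z : K)‖ ≤ ‖(m : K)‖ * r := by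
    refine fun z => ⟨?_, fun h => ?_⟩
    · rintro ⟨y, rfl⟩
      show ‖((m • y : ball K r hr0.le) : K)‖ ≤ _
      rw [AddSubgroup.coe_nsmul, nsmul_eq_mul, norm_mul]
      exact mul_le_mul_of_nonneg_left y.2 (norm_nonneg _)
    · refine ⟨⟨(z : K) / m, ?_⟩, Subtype.ext ?_⟩
      · show ‖(z : K) / m‖ ≤ r
        rw [norm_div, div_le_iff₀ (hr0.trans hr), mul_comm]
        exact h
      · show m • ((z : K) / m) = (z : K)
        rw [nsmul_eq_mul, mul_div_cancel₀ _ hm]
  let f : deep hI r hr0.le → ball K r hr0.le ⧸ (mulBy (ball K r hr0.le) m).range := fun P =>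
    QuotientAddGroup.mk ⟨par (P : W.toAffine.Point), P.2.2⟩
  have hf : ∀ P Q, f P = f Q ↔ (QuotientAddGroup.mk P : deep hI r hr0.le ⧸ (mulBy _ m).range) =
      QuotientAddGroup.mk Q := fun P Q => by
    rw [QuotientAddGroup.eq, QuotientAddGroup.eq, hE, hB]
    show ‖-par (P : W.toAffine.Point) + par (Q : W.toAffine.Point)‖ ≤ _ ↔
      ‖par (-(P : W.toAffine.Point) + (Q : W.toAffine.Point))‖ ≤ _
    rw [neg_add_eq_sub, neg_add_eq_sub, norm_par_sub hI Q.2.1 P.2.1]
  have hsurj : Function.Surjective f := fun a => by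
    obtain ⟨z, rfl⟩ := QuotientAddGroup.mk_surjective a
    have hz1 : ‖(z : K)‖ < 1 :=
      z.2.trans_lt (hr.trans_le (IsUltrametricDist.norm_natCast_le_one K m))
    obtain ⟨w, hw, hw1⟩ := exists_onCurve hI hz1
    refine ⟨⟨aff W (z : K) w, aff_mem_e1 hI hw hz1 hw1, by rw [par_aff hw]; exact z.2⟩, ?_⟩
    show QuotientAddGroup.mk _ = _
    congr 1
    exact Subtype.ext (par_aff hw)
  let g : deep hI r hr0.le ⧸ (mulBy _ m).range → ball K r hr0.le ⧸ (mulBy _ m).range :=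
    fun a => f a.out
  have hg : Function.Bijective g := by
    refine ⟨fun a b h => ?_, fun a => ?_⟩
    · rw [← QuotientAddGroup.out_eq' a, ← QuotientAddGroup.out_eq' b]
      exact (hf _ _).1 h
    · obtain ⟨P, rfl⟩ := hsurj a
      exact ⟨QuotientAddGroup.mk P, (hf _ _).2 (QuotientAddGroup.out_eq' _)⟩
  exact Nat.card_congr (Equiv.ofBijective g hg)

/-- Scaling the unit ball. -/
def ballEquiv {c : K} (hc : c ≠ 0) : intBall K ≃+ ball K ‖c‖ (norm_nonneg c) where
  toFun z := ⟨c * z, show ‖c * (z : K)‖ ≤ ‖c‖ by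
    rw [norm_mul]; exact mul_le_of_le_one_right (norm_nonneg _) z.2⟩
  invFun z := ⟨(z : K) / c, show ‖(z : K) / c‖ ≤ 1 by
    rw [norm_div, div_le_one (norm_pos_iff.2 hc)]; exact z.2⟩
  left_inv z := Subtype.ext (mul_div_cancel_left₀ _ hc)
  right_inv z := Subtype.ext (mul_div_cancel₀ _ hc)
  map_add' z w := Subtype.ext (mul_add c _ _)

/-- **The index for an integral equation.** -/
theorem mulIndex_point_of_intCoeff {W : WeierstrassCurve K} [W.IsElliptic]
    (hI : IntCoeff (NormedField.valuation (K := K)) W.toAffine) {m : ℕ} (hm : m ≠ 0) :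
    mulIndex W.toAffine.Point m =
      torCard W.toAffine.Point m * p ^ (Module.finrank ℚ_[p] K * padicValNat p m) := by
  have hmK : (m : K) ≠ 0 := Nat.cast_ne_zero.2 hm
  set c : K := (m : K) * (p : K) with hc
  have hc0 : c ≠ 0 := mul_ne_zero hmK (Nat.cast_ne_zero.2 hp.out.ne_zero)
  have hr0 : 0 < ‖c‖ := norm_pos_iff.2 hc0
  have hr : ‖c‖ < ‖(m : K)‖ := by
    rw [hc, norm_mul, norm_natCast_p p]
    exact mul_lt_of_lt_one_right (norm_pos_iff.2 hmK)
      (inv_lt_one_of_one_lt₀ (Nat.one_lt_cast.2 hp.out.one_lt))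
  have : Finite (mulBy W.toAffine.Point m).ker := (finite_killed W hmK).to_subtype
  have h := mulIndex_mul_torCard (m := m) (deep hI ‖c‖ hr0.le) (deep_index_ne_zero hI hr0)
  have ht : torCard (deep hI ‖c‖ hr0.le) m = 1 := by
    rw [torCard_eq, Nat.card_eq_one_iff_unique]
    refine ⟨⟨fun a b => ?_⟩, ⟨⟨0, nsmul_zero m⟩⟩⟩
    have hz : ∀ q : {q : deep hI ‖c‖ hr0.le // m • q = 0}, q.1 = 0 := fun q => by
      have h1 := norm_par_nsmul_eq hI q.1.2.1 (n := m) (q.1.2.2.trans_lt hr)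
      rw [show m • (q.1 : W.toAffine.Point) = 0 by
          rw [← AddSubgroup.coe_nsmul, q.2, ZeroMemClass.coe_zero],
        show par (0 : W.toAffine.Point) = 0 from rfl, norm_zero] at h1
      refine Subtype.ext (eq_zero_of_par hI q.1.2.1 (norm_eq_zero.1 ?_))
      exact (mul_eq_zero.1 h1.symm).resolve_left (norm_pos_iff.2 hmK).ne'
    exact Subtype.ext ((hz a).trans (hz b).symm)
  rw [ht, mul_one, mulIndex_deep hI hr0 hr, ← mulIndex_congr (ballEquiv hc0),
    mulIndex_intBall p K hm, mul_comm] at h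
  exact h

/-- **The descent index.** -/
theorem mulIndex_point (W : WeierstrassCurve K) [W.IsElliptic] {m : ℕ} (hm : m ≠ 0) :
    mulIndex W.toAffine.Point m =
      torCard W.toAffine.Point m * p ^ (Module.finrank ℚ_[p] K * padicValNat p m) := by
  set M := ‖W.a₁‖ + ‖W.a₂‖ + ‖W.a₃‖ + ‖W.a₄‖ + ‖W.a₆‖
  obtain ⟨n, hn⟩ := pow_unbounded_of_one_lt M (Nat.one_lt_cast.2 hp.out.one_lt : (1 : ℝ) < p)
  set q : K := (p : K) ^ n with hq
  have hq0 : q ≠ 0 := pow_ne_zero _ (Nat.cast_ne_zero.2 hp.out.ne_zero)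
  have hqn : ‖q‖ = ((p : ℝ) ^ n)⁻¹ := by rw [hq, norm_pow, norm_natCast_p p, inv_pow]
  have hq1 : ‖q‖ ≤ 1 := by
    rw [hqn]; exact inv_le_one_of_one_le₀ (one_le_pow₀ (Nat.one_le_cast.2 hp.out.one_le))
  set C : VariableChange K := ⟨(Units.mk0 q hq0)⁻¹, 0, 0, 0⟩ with hC
  have hle : ∀ {a : K} {k : ℕ}, ‖a‖ ≤ M → k ≠ 0 → ‖q ^ k * a‖ ≤ 1 := fun {a k} ha hk => by
    rw [norm_mul, norm_pow]
    refine (mul_le_mul_of_nonneg_right (pow_le_of_le_one (norm_nonneg _) hq1 hk)
      (norm_nonneg _)).trans ?_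
    rw [hqn, inv_mul_le_iff₀ (pow_pos (Nat.cast_pos.2 hp.out.pos) n), mul_one]
    exact ha.trans hn.le
  have n1 := norm_nonneg W.a₁
  have n2 := norm_nonneg W.a₂
  have n3 := norm_nonneg W.a₃
  have n4 := norm_nonneg W.a₄
  have n6 := norm_nonneg W.a₆
  have hI : IntCoeff (NormedField.valuation (K := K)) (C • W).toAffine := by
    refine ⟨?_, ?_, ?_, ?_, ?_⟩
    · show ‖(C • W).a₁‖ ≤ 1
      simp only [hC, variableChange_a₁, inv_inv, Units.val_mk0, mul_zero, add_zero]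
      rw [← pow_one q]; exact hle (by linarith) one_ne_zero
    · show ‖(C • W).a₂‖ ≤ 1
      rw [show (C • W).a₂ = q ^ 2 * W.a₂ by simp [hC, variableChange_a₂]]
      exact hle (by linarith) two_ne_zero
    · show ‖(C • W).a₃‖ ≤ 1
      rw [show (C • W).a₃ = q ^ 3 * W.a₃ by simp [hC, variableChange_a₃]]
      exact hle (by linarith) three_ne_zero
    · show ‖(C • W).a₄‖ ≤ 1
      rw [show (C • W).a₄ = q ^ 4 * W.a₄ by simp [hC, variableChange_a₄]]
      exact hle (by linarith) four_ne_zero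
    · show ‖(C • W).a₆‖ ≤ 1
      rw [show (C • W).a₆ = q ^ 6 * W.a₆ by simp [hC, variableChange_a₆]]
      exact hle (by linarith) (by norm_num)
  have e := FA.Frob.vcEquiv C (rfl : C • W = _)
  rw [← mulIndex_congr e, ← torCard_congr e]
  exact mulIndex_point_of_intCoeff p hI hm

end FA.LocalDescent
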