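import Fermat.Agent.LocalDescent.Main
import Fermat.Agent.Root.SummaryRealGroup

/-!
# The index over the reals and the product over the places

For a real elliptic curve `[E (ℝ) : m E (ℝ)] m` is the number of points killed by `m`. So over `ℚ`
the indices at infinity and at a finite set of primes containing those of `m` have the product of
the numbers of points killed by `m`.
-/

set_option autoImplicit false
set_option linter.unusedSectionVars false

noncomputable section

open WeierstrassCurve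
open scoped Classical

namespace FA.LocalDescent

theorem torCard_circle {m : ℕ} (hm : m ≠ 0) : torCard (AddCircle (1 : ℝ)) m = m := by
  have hm0 : 0 < m := Nat.pos_of_ne_zero hm
  set g : AddCircle (1 : ℝ) := (((1 : ℝ) / m : ℝ) : AddCircle (1 : ℝ)) with hg
  have hord : addOrderOf g = m := AddCircle.addOrderOf_period_div hm0
  have hker : (mulBy (AddCircle (1 : ℝ)) m).ker = AddSubgroup.zmultiples g := by
    refine le_antisymm (fun u hu => ?_) ?_
    · obtain ⟨k, -, hk⟩ := (AddCircle.nsmul_eq_zero_iff hm0).1 ((mem_ker_mulBy m).1 hu)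
      refine AddSubgroup.mem_zmultiples_iff.2 ⟨k, ?_⟩
      rw [natCast_zsmul, hg, ← AddCircle.coe_nsmul, nsmul_eq_mul, ← hk]
      congr 1
      ring
    · rw [AddSubgroup.zmultiples_le]
      exact (mem_ker_mulBy m).2 (by
        conv_lhs => rw [← hord]
        exact addOrderOf_nsmul_eq_zero g)
  rw [torCard, hker, Nat.card_zmultiples, hord]

theorem mulIndex_circle {m : ℕ} (hm : m ≠ 0) : mulIndex (AddCircle (1 : ℝ)) m = 1 := by
  rw [mulIndex, AddSubgroup.index_eq_one, AddMonoidHom.range_eq_top]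
  intro u
  obtain ⟨t, rfl⟩ := QuotientAddGroup.mk_surjective u
  refine ⟨((t / m : ℝ) : AddCircle (1 : ℝ)), ?_⟩
  show m • ((t / m : ℝ) : AddCircle (1 : ℝ)) = _
  rw [← AddCircle.coe_nsmul, nsmul_eq_mul, mul_div_cancel₀ _ (Nat.cast_ne_zero.2 hm)]

/-- In a finite group the multiples have index the number of points killed. -/
theorem mulIndex_of_finite (A : Type*) [AddCommGroup A] [Finite A] (m : ℕ) :
    mulIndex A m = torCard A m := by
  have h := AddSubgroup.card_mul_index (mulBy A m).ker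
  rw [AddSubgroup.index_ker] at h
  have h' := AddSubgroup.card_mul_index (mulBy A m).range
  refine mul_left_cancel₀ (Nat.card_pos (α := (mulBy A m).range)).ne' ?_
  rw [mul_comm _ (torCard A m)]
  exact h'.trans h.symm

theorem torCard_prod (A B : Type*) [AddCommGroup A] [AddCommGroup B] (m : ℕ) :
    torCard (A × B) m = torCard A m * torCard B m := by
  rw [torCard, torCard, torCard, ← Nat.card_prod]
  exact Nat.card_congr
    { toFun := fun x => (⟨x.1.1, congrArg Prod.fst x.2⟩, ⟨x.1.2, congrArg Prod.snd x.2⟩)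
      invFun := fun x => ⟨(x.1.1, x.2.1), Prod.ext x.1.2 x.2.2⟩
      left_inv := fun _ => rfl
      right_inv := fun _ => rfl }

theorem mulIndex_prod (A B : Type*) [AddCommGroup A] [AddCommGroup B] (m : ℕ) :
    mulIndex (A × B) m = mulIndex A m * mulIndex B m := by
  have h : (mulBy (A × B) m).range = (mulBy A m).range.prod (mulBy B m).range := by
    ext x
    refine ⟨?_, ?_⟩
    · rintro ⟨y, rfl⟩
      exact ⟨⟨y.1, rfl⟩, ⟨y.2, rfl⟩⟩
    · rintro ⟨⟨a, ha⟩, ⟨b, hb⟩⟩
      exact ⟨(a, b), Prod.ext ha hb⟩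
  rw [mulIndex, h, AddSubgroup.index_prod]

/-- **The real index.** -/
theorem mulIndex_real {A B : ℝ} [(⟨0, 0, 0, A, B⟩ : WeierstrassCurve ℝ).IsElliptic] {m : ℕ}
    (hm : m ≠ 0) :
    mulIndex (⟨0, 0, 0, A, B⟩ : WeierstrassCurve ℝ).toAffine.Point m * m =
      torCard (⟨0, 0, 0, A, B⟩ : WeierstrassCurve ℝ).toAffine.Point m := by
  rcases lt_trichotomy (4 * A ^ 3 + 27 * B ^ 2) 0 with hd | hd | hd
  · obtain ⟨e, -⟩ := FA.Summary.realPoints_circle_two hd
    rw [mulIndex_congr e, torCard_congr e, mulIndex_prod, torCard_prod, mulIndex_circle hm,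
      torCard_circle hm, mulIndex_of_finite, one_mul, mul_comm]
  · exact absurd hd (FA.RealPoints.discriminant_ne_zero A B)
  · obtain ⟨e⟩ := FA.Summary.realPoints_circle hd
    rw [mulIndex_congr e, torCard_congr e, mulIndex_circle hm, torCard_circle hm, one_mul]

local instance factPrimes (q : Nat.Primes) : Fact (q : ℕ).Prime := ⟨q.2⟩

theorem prod_primes_pow {m : ℕ} (hm : m ≠ 0) {S : Finset Nat.Primes}
    (hS : ∀ q : Nat.Primes, (q : ℕ) ∣ m → q ∈ S) :
    ∏ q ∈ S, (q : ℕ) ^ padicValNat (q : ℕ) m = m := by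
  conv_rhs => rw [← Nat.prod_factorization_pow_eq_self hm]
  rw [Finsupp.prod, Nat.support_factorization]
  have e : ∏ q ∈ S.map ⟨Subtype.val, Subtype.val_injective⟩, q ^ padicValNat q m =
      ∏ q ∈ S, (q : ℕ) ^ padicValNat (q : ℕ) m := Finset.prod_map _ _ _
  rw [← e]
  refine (Finset.prod_subset (fun q hq => ?_) fun q hq hq' => ?_).symm.trans
    (Finset.prod_congr rfl fun q hq => by
      rw [Nat.factorization_def m (Nat.prime_of_mem_primeFactors hq)])
  · exact Finset.mem_map.2 ⟨⟨q, Nat.prime_of_mem_primeFactors hq⟩,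
      hS _ (Nat.dvd_of_mem_primeFactors hq), rfl⟩
  · obtain ⟨⟨q, hqp⟩, -, rfl⟩ := Finset.mem_map.1 hq
    show q ^ padicValNat q m = 1
    have hd : ¬ q ∣ m := fun h => hq' (Nat.mem_primeFactors.2 ⟨hqp, h, hm⟩)
    rw [padicValNat.eq_zero_of_not_dvd hd, pow_zero]

/-- The points of a short equation over a field. -/
abbrev shortPts (A B : ℚ) (K : Type*) [Field K] [Algebra ℚ K] : Type _ :=
  (⟨0, 0, 0, algebraMap ℚ K A, algebraMap ℚ K B⟩ : WeierstrassCurve K).toAffine.Point

theorem isElliptic_short (A B : ℚ) (h : 4 * A ^ 3 + 27 * B ^ 2 ≠ 0) (K : Type*) [Field K]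
    [Algebra ℚ K] :
    (⟨0, 0, 0, algebraMap ℚ K A, algebraMap ℚ K B⟩ : WeierstrassCurve K).IsElliptic := by
  have : (⟨0, 0, 0, A, B⟩ : WeierstrassCurve ℚ).IsElliptic := by
    rw [isElliptic_iff, isUnit_iff_ne_zero]
    simp only [WeierstrassCurve.Δ, b₂, b₄, b₆, b₈]
    intro h0
    apply h
    linear_combination (-1 / 16 : ℚ) * h0
  have e : (⟨0, 0, 0, algebraMap ℚ K A, algebraMap ℚ K B⟩ : WeierstrassCurve K) =
      (⟨0, 0, 0, A, B⟩ : WeierstrassCurve ℚ).map (algebraMap ℚ K) := by ext <;> simp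
  rw [e]
  infer_instance

/-- **The product of the local indices.** -/
theorem prod_mulIndex (A B : ℚ) (h : 4 * A ^ 3 + 27 * B ^ 2 ≠ 0) {m : ℕ} (hm : m ≠ 0)
    {S : Finset Nat.Primes} (hS : ∀ q : Nat.Primes, (q : ℕ) ∣ m → q ∈ S) :
    mulIndex (shortPts A B ℝ) m * ∏ q ∈ S, mulIndex (shortPts A B ℚ_[(q : ℕ)]) m =
      torCard (shortPts A B ℝ) m * ∏ q ∈ S, torCard (shortPts A B ℚ_[(q : ℕ)]) m := by
  have := isElliptic_short A B h ℝ
  rw [Finset.prod_congr rfl fun q (_ : q ∈ S) => show mulIndex (shortPts A B ℚ_[(q : ℕ)]) m =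
      torCard (shortPts A B ℚ_[(q : ℕ)]) m * (q : ℕ) ^ padicValNat (q : ℕ) m from by
    have := isElliptic_short A B h ℚ_[(q : ℕ)]
    have := mulIndex_point (q : ℕ) (K := ℚ_[(q : ℕ)])
      ⟨0, 0, 0, algebraMap ℚ ℚ_[(q : ℕ)] A, algebraMap ℚ ℚ_[(q : ℕ)] B⟩ hm
    rwa [Module.finrank_self, one_mul] at this,
    Finset.prod_mul_distrib, prod_primes_pow hm hS, mul_comm _ m, ← mul_assoc,
    mulIndex_real hm]

end FA.LocalDescent
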